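import Fermat.Agent.LO4.Good
import Fermat.Agent.KField.Ram

set_option autoImplicit false

/-!
# Good reduction and inertia unipotent modulo a line: the reduction is ordinary
-/

namespace Fermat.Agent.LO4

open WeierstrassCurve WeierstrassCurve.Affine WeierstrassCurve.Affine.Point Polynomial
open Fermat.Agent.EC (IsInt InE1 xX xZ IsKummer TrivMod NS)
open Fermat.Agent.ECP Fermat.Agent.ELoc

local notation "Qb" => AlgebraicClosure ℚ

lemma mem_of_two {G : Type*} [AddCommGroup G] {H : AddSubgroup G} {p : ℕ} (hp : Odd p) {x : G}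
    (hx : p • x = 0) (h : (2 : ℕ) • x ∈ H) : x ∈ H := by
  obtain ⟨k, hk⟩ := hp
  have h1 : x = p • x - k • ((2 : ℕ) • x) := by
    rw [hk, add_smul, one_smul, ← mul_smul, mul_comm k 2]
    abel
  rw [h1, hx, zero_sub]
  exact neg_mem (nsmul_mem h k)

lemma aux1 {G : Type*} [AddCommGroup G] {p : ℕ} {b : G} (hb : p • b = 0) (m : ℤ) :
    p • (m • b) = 0 := by
  rw [smul_comm, hb, smul_zero]

lemma aux2 {G : Type*} [AddCommGroup G] {p : ℕ} {b : G} (hb : p • b = 0) (x : G) (j : ℕ) :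
    x + (j % p) • b = x + j • b := by
  conv_rhs => rw [← Nat.mod_add_div j p]
  rw [add_smul, mul_comm, mul_smul, hb, smul_zero, add_zero]

lemma aux3 {G : Type*} [AddCommGroup G] {p : ℕ} {b x : G} (hb : p • b = 0) (hx : p • x = 0)
    (j : ℕ) : p • (x + j • b) = 0 := by
  rw [smul_add, hx, zero_add, smul_comm, hb, smul_zero]

lemma aux4 {G : Type*} [AddCommGroup G] {b x : G} {i j : ℕ} (h : x + i • b = -(x + j • b)) :
    (2 : ℕ) • x = -(i • b) - j • b := by
  have h2 : x = -(x + j • b) - i • b := by rw [← h]; abel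
  calc (2 : ℕ) • x = x + x := two_nsmul x
    _ = (-(x + j • b) - i • b) + x := by rw [← h2]
    _ = _ := by abel

lemma aux5 {G : Type*} [AddCommGroup G] (b x : G) (i j : ℕ) :
    x + i • b + j • b = x + (i + j) • b := by
  rw [add_assoc, ← add_smul]

theorem exists_not_mem_E1 (W' : Affine ℚ) {p : ℕ} (hp : p.Prime) (hp2 : p ≠ 2)
    {A : ValuationSubring Qb} (hA : A.LiesOverPrime p) (hW : IsInt A.valuation (W'⁄Qb))
    (hΔ : A.valuation (W'⁄Qb).Δ = 1) (hfin : {P : (W'⁄Qb).Point | p • P = 0}.Finite)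
    (hcard : p ^ 2 ≤ {P : (W'⁄Qb).Point | p • P = 0}.ncard) {b : (W'⁄Qb).Point} (hb0 : b ≠ 0)
    (hb : p • b = 0) (hI : ∀ s ∈ A.inertiaSubgroupIn ℚ, ∀ P : (W'⁄Qb).Point, p • P = 0 →
      ∃ k : ℕ, s • P = P + k • b) :
    ∃ P : (W'⁄Qb).Point, p • P = 0 ∧ P ∉ E1 A.valuation hW := by
  classical
  by_contra hcon
  push Not at hcon
  have hvp : A.valuation (p : Qb) < 1 := A.mem_nonunits_iff.mp hA
  have hpK : (p : Qb) ≠ 0 := by exact_mod_cast hp.ne_zero
  have hv4 : A.valuation (4 : Qb) = 1 := by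
    have h1 : ¬ (p : ℤ) ∣ (4 : ℤ) := by
      intro h
      have h2 : p ∣ 2 ^ 2 := by exact_mod_cast h
      exact hp2 ((Nat.prime_dvd_prime_iff_eq hp Nat.prime_two).mp (hp.dvd_of_dvd_pow h2))
    exact_mod_cast S05.val_int_eq_one hp hvp h1
  have hodd := hp.odd_of_ne_two hp2
  set H : AddSubgroup (W'⁄Qb).Point := AddSubgroup.zmultiples b with hH
  have hbH : b ∈ H := AddSubgroup.mem_zmultiples b
  -- a point outside
  obtain ⟨x, hx, hxH⟩ : ∃ x : (W'⁄Qb).Point, p • x = 0 ∧ x ∉ H := by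
    by_contra hc
    push Not at hc
    have hord : addOrderOf b = p := by
      have : Fact p.Prime := ⟨hp⟩
      exact addOrderOf_eq_prime hb hb0
    have hfH : (H : Set (W'⁄Qb).Point).Finite := by
      refine hfin.subset ?_
      intro P hP
      obtain ⟨m, rfl⟩ := AddSubgroup.mem_zmultiples_iff.mp hP
      exact aux1 hb m
    have h1 : {P : (W'⁄Qb).Point | p • P = 0}.ncard ≤ (H : Set (W'⁄Qb).Point).ncard :=
      Set.ncard_le_ncard (fun P hP => hc P hP) hfH
    have h2 : (H : Set (W'⁄Qb).Point).ncard = p := by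
      rw [← Nat.card_coe_set_eq]
      have := Nat.card_zmultiples b
      rw [hord] at this
      exact this
    have h3 := hp.two_le
    have h4 : p ^ 2 ≤ p := by rw [h2] at h1; exact hcard.trans h1
    nlinarith
  set S : Finset (W'⁄Qb).Point := (Finset.range p).image (fun j : ℕ => x + j • b) with hS
  have hmemS : ∀ P : (W'⁄Qb).Point, P ∈ S ↔ ∃ j < p, x + j • b = P := by
    intro P
    rw [hS, Finset.mem_image]
    simp only [Finset.mem_range]
  have hjS : ∀ j : ℕ, x + j • b ∈ S := by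
    intro j
    rw [hmemS]
    exact ⟨j % p, Nat.mod_lt _ hp.pos, aux2 hb x j⟩
  have hSH : ∀ P ∈ S, P ∉ H := by
    intro P hP hPH
    obtain ⟨j, -, rfl⟩ := (hmemS P).mp hP
    apply hxH
    have := sub_mem hPH (nsmul_mem hbH j)
    rwa [add_sub_cancel_right] at this
  have hS0 : ∀ P ∈ S, P ≠ 0 := fun P hP h0 => hSH P hP (by rw [h0]; exact zero_mem _)
  have hSp : ∀ P ∈ S, p • P = 0 := by
    intro P hP
    obtain ⟨j, -, rfl⟩ := (hmemS P).mp hP
    exact aux3 hb hx j
  have hSv : ∀ P ∈ S, 1 < A.valuation (xc P) := fun P hP =>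
    (mem_E1_iff' hW (hS0 P hP)).mp (hcon P (hSp P hP))
  have hbv : 1 < A.valuation (xc b) := (mem_E1_iff' hW hb0).mp (hcon b hb)
  -- injectivity of the abscissa
  have hxinj : Set.InjOn xc (S : Set (W'⁄Qb).Point) := by
    intro P hP Q hQ hPQ
    rcases (xc_eq_iff (hS0 P hP) (hS0 Q hQ)).mp hPQ with h | h
    · exact h
    · exfalso
      obtain ⟨i, -, rfl⟩ := (hmemS P).mp hP
      obtain ⟨j, -, rfl⟩ := (hmemS Q).mp hQ
      apply hxH
      refine mem_of_two hodd hx ?_
      rw [aux4 h]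
      exact sub_mem (neg_mem (nsmul_mem hbH i)) (nsmul_mem hbH j)
  have hbnot : xc b ∉ S.image xc := by
    intro h
    obtain ⟨P, hP, hPb⟩ := Finset.mem_image.mp h
    rcases (xc_eq_iff (hS0 P hP) hb0).mp hPb with h1 | h1
    · exact hSH P hP (by rw [h1]; exact hbH)
    · exact hSH P hP (by rw [h1]; exact neg_mem hbH)
  -- the product
  set y : Qb := ∏ P ∈ S, xc P with hy
  have hxc0 : ∀ P ∈ S, xc P ≠ 0 := by
    intro P hP h0
    have := hSv P hP
    rw [h0, _root_.map_zero] at this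
    exact absurd this (not_lt.mpr zero_le)
  have hy0 : y ≠ 0 := Finset.prod_ne_zero_iff.mpr hxc0
  have hyfix : ∀ s ∈ A.inertiaSubgroupIn ℚ, s y = y := by
    intro s hs
    have himg : S.image (fun P => s • P) = S := by
      apply Finset.eq_of_subset_of_card_le
      · intro Q hQ
        obtain ⟨P, hP, rfl⟩ := Finset.mem_image.mp hQ
        obtain ⟨k, hk⟩ := hI s hs P (hSp P hP)
        obtain ⟨j, -, rfl⟩ := (hmemS P).mp hP
        rw [hk, aux5]
        exact hjS _
      · rw [Finset.card_image_of_injective _ (MulAction.injective s)]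
    calc s y = ∏ P ∈ S, s (xc P) := by rw [hy, map_prod]
      _ = ∏ P ∈ S, xc (s • P) := Finset.prod_congr rfl fun P hP => (xc_smul s (hS0 P hP)).symm
      _ = ∏ Q ∈ S.image (fun P => s • P), xc Q := by
        rw [Finset.prod_image (fun P _ Q _ h => MulAction.injective s h)]
      _ = y := by rw [himg]
  obtain ⟨n, hn⟩ := KField.val_zpow hp hA hy0 hyfix
  have hSne : S.Nonempty := ⟨_, hjS 0⟩
  have hvy : 1 < A.valuation y := by
    obtain ⟨P, hP⟩ := hSne
    have h1 : A.valuation y = A.valuation (xc P) * ∏ Q ∈ S.erase P, A.valuation (xc Q) := by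
      rw [hy, map_prod, Finset.mul_prod_erase S (fun Q => A.valuation (xc Q)) hP]
    rw [h1]
    refine lt_of_lt_of_le (hSv P hP) (le_mul_of_one_le_right' ?_)
    exact Finset.one_le_prod' fun Q hQ => (hSv Q (Finset.mem_of_mem_erase hQ)).le
  have hvp0 : 0 < A.valuation (p : Qb) :=
    lt_of_le_of_ne zero_le (Ne.symm (A.valuation.ne_zero_iff.mpr hpK))
  have hvpy : 1 ≤ A.valuation (p : Qb) * A.valuation y := by
    rw [hn] at hvy ⊢
    have hn0 : n < 0 := by
      by_contra h
      rw [not_lt] at h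
      obtain ⟨m, rfl⟩ := Int.eq_ofNat_of_zero_le h
      rw [zpow_natCast] at hvy
      exact absurd hvy (not_lt.mpr (pow_le_one' hvp.le m))
    obtain ⟨m, hm⟩ := Int.eq_ofNat_of_zero_le (show 0 ≤ -n - 1 by omega)
    have hn' : n = -((m : ℤ) + 1) := by omega
    have h2 : A.valuation (p : Qb) * A.valuation (p : Qb) ^ n = (A.valuation (p : Qb) ^ m)⁻¹ := by
      rw [hn', zpow_neg, show ((m : ℤ) + 1) = ((m + 1 : ℕ) : ℤ) by push_cast; ring, zpow_natCast,
        pow_succ, mul_inv, ← mul_assoc, mul_comm (A.valuation (p : Qb)), mul_assoc,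
        mul_inv_cancel₀ hvp0.ne', mul_one]
    rw [h2]
    exact (one_le_inv₀ (pow_pos hvp0 m)).mpr (pow_le_one' hvp.le m)
  -- comparison with the product over all abscissae
  have hbig := prod_big_good hW hΔ hv4 hp hp2 hpK hfin hcard
  have hT : insert (xc b) (S.image xc) ⊆
      ({a ∈ xset (W'⁄Qb) p hfin | 1 < A.valuation a} : Finset Qb) := by
    intro a ha
    rw [Finset.mem_filter, mem_xset]
    rcases Finset.mem_insert.mp ha with rfl | ha
    · exact ⟨⟨b, hb0, hb, rfl⟩, hbv⟩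
    · obtain ⟨P, hP, rfl⟩ := Finset.mem_image.mp ha
      exact ⟨⟨P, hS0 P hP, hSp P hP, rfl⟩, hSv P hP⟩
  have h1 : A.valuation (xc b) * A.valuation y ≤
      ∏ a ∈ xset (W'⁄Qb) p hfin with 1 < A.valuation a, A.valuation a := by
    rw [← Finset.prod_sdiff hT, Finset.prod_insert hbnot, Finset.prod_image hxinj, hy, map_prod]
    refine le_mul_of_one_le_left' ?_
    refine Finset.one_le_prod' fun a ha => ?_
    exact (Finset.mem_filter.mp (Finset.mem_sdiff.mp ha).1).2.le
  have h2 : A.valuation (p : Qb) * (A.valuation (xc b) * A.valuation y) ≤ 1 := by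
    rw [← hbig]
    exact mul_le_mul_right h1 _
  have h3 : A.valuation (p : Qb) * (A.valuation (xc b) * A.valuation y) =
      A.valuation (xc b) * (A.valuation (p : Qb) * A.valuation y) := mul_left_comm _ _ _
  rw [h3] at h2
  exact absurd h2 (not_le.mpr (lt_of_lt_of_le hbv (le_mul_of_one_le_right' hvpy)))

end Fermat.Agent.LO4
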