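import Fermat.Agent.ELoc.Act
import Fermat.Agent.ELoc.Basis

set_option autoImplicit false

/-!
# Local structure of the `p`-torsion at `p` in the case of good ordinary reduction
-/

namespace Fermat.Agent.LO4

open WeierstrassCurve WeierstrassCurve.Affine WeierstrassCurve.Affine.Point Polynomial
open Fermat.Agent.EC (IsInt InE1 xX xZ IsKummer TrivMod NS)
open Fermat.Agent.ECP Fermat.Agent.ELoc

variable {K Γ₀ : Type*} [Field K] [LinearOrderedCommGroupWithZero Γ₀] {v : Valuation K Γ₀}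
  {W : WeierstrassCurve.Affine K}

/-- an integral two-torsion abscissa at which `Ψ₃` is a unit -/
lemma exists_two [IsAlgClosed K] (hW : IsInt v W) (hΔ : v W.Δ = 1) (h4 : v (4 : K) = 1) :
    ∃ e : K, v e ≤ 1 ∧ W.Ψ₂Sq.eval e = 0 ∧ v (W.Ψ₃.eval e) = 1 := by
  have h40 : (4 : K) ≠ 0 := by
    intro h0; rw [h0, _root_.map_zero] at h4; exact zero_ne_one h4
  have hdeg : W.Ψ₂Sq.degree ≠ 0 := by
    have : W.Ψ₂Sq.natDegree = 3 := by
      rw [WeierstrassCurve.Ψ₂Sq]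
      compute_degree!
    intro h0
    have h1 := Polynomial.natDegree_eq_zero_iff_degree_le_zero.2 h0.le
    omega
  obtain ⟨e, he⟩ := IsAlgClosed.exists_root W.Ψ₂Sq hdeg
  have he0 : W.Ψ₂Sq.eval e = 0 := he
  have he1 : 4 * e ^ 3 + W.b₂ * e ^ 2 + 2 * W.b₄ * e + W.b₆ = 0 := by
    rw [← he0, WeierstrassCurve.Ψ₂Sq]
    simp
  have h2' : v (2 : K) ≤ 1 := by exact_mod_cast EC.val_natCast_le_one v 2
  have hle : v e ≤ 1 := by
    by_contra hcon
    rw [not_le] at hcon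
    have h1 : 4 * e ^ 3 = -(W.b₂ * e ^ 2 + 2 * W.b₄ * e + W.b₆) := by linear_combination he1
    have h2 : v (4 * e ^ 3) = v e ^ 3 := by rw [map_mul, h4, one_mul, map_pow]
    have hpos : 0 < v e := zero_lt_one.trans hcon
    have h3 : v (-(W.b₂ * e ^ 2 + 2 * W.b₄ * e + W.b₆)) ≤ v e ^ 2 := by
      rw [Valuation.map_neg]
      have k1 : (1 : Γ₀) ≤ v e ^ 2 := one_le_pow_of_one_le' hcon.le 2
      refine (v.map_add _ _).trans (max_le ((v.map_add _ _).trans (max_le ?_ ?_)) ?_)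
      · rw [map_mul, map_pow]; exact mul_le_of_le_one_left' hW.b₂
      · rw [map_mul, map_mul]
        have k2 : v (2 : K) * v W.b₄ ≤ 1 := mul_le_one' h2' hW.b₄
        refine (mul_le_of_le_one_left' k2).trans ?_
        rw [pow_two]
        exact le_mul_of_one_le_left' hcon.le
      · exact hW.b₆.trans k1
    rw [← h1, h2, pow_succ] at h3
    have h5 : v e ^ 2 < v e ^ 2 * v e := lt_mul_of_one_lt_right (pow_pos hpos 2) hcon
    exact absurd h3 (not_le.mpr h5)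
  refine ⟨e, hle, he0, ?_⟩
  have hns := hW.ns_of_Δ hΔ hle
  rcases hns with h1 | h1
  · rw [he1, _root_.map_zero] at h1
    exact absurd h1 zero_ne_one
  · have h2 : W.Ψ₃.eval e = -(e ^ 4 - W.b₄ * e ^ 2 - 2 * W.b₆ * e - W.b₈) := by
      rw [WeierstrassCurve.Ψ₃]
      simp only [eval_add, eval_mul, eval_pow, eval_X, eval_C, eval_ofNat]
      linear_combination e * he1
    rw [h2, Valuation.map_neg, h1]

section Big

variable [DecidableEq K]

/-- the product over the points of the kernel of reduction -/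
lemma prod_big_good [IsAlgClosed K] (hW : IsInt v W) (hΔ : v W.Δ = 1) (h4 : v (4 : K) = 1) {p : ℕ}
    (hp : p.Prime) (hp2 : p ≠ 2) (hpK : (p : K) ≠ 0) (hfin : {P : W.Point | p • P = 0}.Finite)
    (hcard : p ^ 2 ≤ {P : W.Point | p • P = 0}.ncard) :
    v (p : K) * ∏ a ∈ xset W p hfin with 1 < v a, v a = 1 := by
  classical
  obtain ⟨e', he', h2, h3⟩ := exists_two hW hΔ h4
  have hodd : ¬ Even p := by rw [Nat.not_even_iff_odd]; exact hp.odd_of_ne_two hp2
  have h1 := val_preΨ'_eval_two_torsion h2 h3 p hodd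
  rw [eval_preΨ' hp hp2 hpK hfin hcard, map_mul, map_prod,
    ← Finset.prod_filter_mul_prod_filter_not _ (fun a => 1 < v a), ← mul_assoc] at h1
  have h5 : ∏ a ∈ xset W p hfin with 1 < v a, v (e' - a) =
      ∏ a ∈ xset W p hfin with 1 < v a, v a := by
    refine Finset.prod_congr rfl fun a ha => ?_
    have ha' := (Finset.mem_filter.mp ha).2
    rw [Valuation.map_sub_eq_of_lt_right v (lt_of_le_of_lt he' ha')]
  rw [h5] at h1
  have h6 : v (p : K) * ∏ a ∈ xset W p hfin with 1 < v a, v a ≤ 1 := by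
    have h7 := map_leadingCoeff_mul_prod_le_one (intCoeff_preΨ' hW p)
      (S := ({a ∈ xset W p hfin | 1 < v a} : Finset K).val) (by
        rw [roots_eq_xset hp hp2 hpK hfin hcard, Finset.val_le_iff]
        exact Finset.filter_subset _ _)
    rw [W.leadingCoeff_preΨ' hpK, if_neg hodd, map_mul] at h7
    have h8 : v ({a ∈ xset W p hfin | 1 < v a} : Finset K).val.prod =
        ∏ a ∈ xset W p hfin with 1 < v a, v a := by
      rw [Finset.prod_val, map_prod]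
      rfl
    rwa [h8] at h7
  have h9 : ∏ a ∈ xset W p hfin with ¬ 1 < v a, v (e' - a) ≤ 1 := by
    apply Finset.prod_le_one'
    intro a ha
    have ha' := not_lt.mp (Finset.mem_filter.mp ha).2
    exact (v.map_sub _ _).trans (max_le he' ha')
  exact (EC.mul_eq_one_of_le h6 h9 h1).1

/-- there is a nonzero `p`-torsion point in the kernel of reduction -/
lemma exists_mem_E1_good [IsAlgClosed K] (hW : IsInt v W) (hΔ : v W.Δ = 1) (h4 : v (4 : K) = 1)
    {p : ℕ} (hp : p.Prime) (hp2 : p ≠ 2) (hpK : (p : K) ≠ 0) (hvp : v (p : K) < 1)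
    (hfin : {P : W.Point | p • P = 0}.Finite)
    (hcard : p ^ 2 ≤ {P : W.Point | p • P = 0}.ncard) :
    ∃ P : W.Point, P ≠ 0 ∧ p • P = 0 ∧ P ∈ E1 v hW := by
  classical
  by_contra hcon
  push Not at hcon
  have h1 := prod_big_good hW hΔ h4 hp hp2 hpK hfin hcard
  have h2 : ({a ∈ xset W p hfin | 1 < v a} : Finset K) = ∅ := by
    rw [Finset.filter_eq_empty_iff]
    intro a ha hva
    obtain ⟨P, hP0, hP, rfl⟩ := (mem_xset hfin).mp ha
    exact hcon P hP0 hP ((mem_E1_iff' hW hP0).mpr hva)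
  rw [h2, Finset.prod_empty, mul_one] at h1
  exact absurd h1 hvp.ne

/-- generator of the kernel of reduction, ordinary case -/
lemma exists_gen_good [IsAlgClosed K] (hW : IsInt v W) (hΔ : v W.Δ = 1) (h4 : v (4 : K) = 1)
    {p : ℕ} (hp : p.Prime) (hp2 : p ≠ 2) (hpK : (p : K) ≠ 0) (hvp : v (p : K) < 1)
    (hfin : {P : W.Point | p • P = 0}.Finite)
    (hcard : p ^ 2 ≤ {P : W.Point | p • P = 0}.ncard)
    (hord : ∃ P : W.Point, p • P = 0 ∧ P ∉ E1 v hW) :
    ∃ a : W.Point, a ≠ 0 ∧ p • a = 0 ∧ a ∈ E1 v hW ∧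
      (∀ Q : W.Point, p • Q = 0 → Q ∈ E1 v hW → ∃ k : ℕ, Q = k • a) ∧
      (∀ R : W.Point, p • R = 0 → R ∉ E1 v hW → ∀ Q : W.Point, p • Q = 0 →
        ∃ i j : ℕ, Q = i • a + j • R) := by
  obtain ⟨a, ha0, ha, ha1⟩ := exists_mem_E1_good hW hΔ h4 hp hp2 hpK hvp hfin hcard
  obtain ⟨R, hR, hR0⟩ := hord
  have hle := (torsion_card_le (W := W) hp hp2 hpK).2
  refine ⟨a, ha0, ha, ha1, ?_, ?_⟩
  · intro Q hQ hQ0
    by_contra hcon
    push Not at hcon
    obtain ⟨i, j, hij⟩ := exists_repr hp hfin hle ha ha0 hQ hcon hR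
    apply hR0
    rw [hij]
    exact add_mem (nsmul_mem ha1 i) (nsmul_mem hQ0 j)
  · intro R hR hR0 Q hQ
    refine exists_repr hp hfin hle ha ha0 hR (fun k hk => hR0 ?_) hQ
    rw [hk]
    exact nsmul_mem ha1 k

/-- valuation of the `x`-coordinate of the points in the kernel of reduction -/
lemma val_xc_gen_good [IsAlgClosed K] (hW : IsInt v W) (hΔ : v W.Δ = 1) (h4 : v (4 : K) = 1)
    {p : ℕ} (hp : p.Prime) (hp2 : p ≠ 2) (hpK : (p : K) ≠ 0) (hvp : v (p : K) < 1)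
    (hfin : {P : W.Point | p • P = 0}.Finite)
    (hcard : p ^ 2 ≤ {P : W.Point | p • P = 0}.ncard) {a : W.Point} (ha0 : a ≠ 0)
    (ha : p • a = 0) (ha1 : a ∈ E1 v hW)
    (hgen : ∀ Q : W.Point, p • Q = 0 → Q ∈ E1 v hW → ∃ k : ℕ, Q = k • a) :
    v (p : K) * v (xc a) ^ ((p - 1) / 2) = 1 := by
  classical
  have h1 := prod_big_good hW hΔ h4 hp hp2 hpK hfin hcard
  have hodd := hp.odd_of_ne_two hp2
  obtain ⟨m, hm⟩ := hodd
  have hm' : (p - 1) / 2 = m := by omega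
  have h2 : ({b ∈ xset W p hfin | 1 < v b} : Finset K) =
      (Finset.Icc 1 m).image (fun k : ℕ => xc (k • a)) := by
    ext b
    rw [Finset.mem_filter, mem_xset, Finset.mem_image]
    constructor
    · rintro ⟨⟨Q, hQ0, hQ, rfl⟩, hb⟩
      obtain ⟨k, rfl⟩ := hgen Q hQ ((mem_E1_iff' hW hQ0).mpr hb)
      have hk : ¬ p ∣ k := fun hd => hQ0 ((nsmul_eq_zero_iff_dvd hp ha ha0 k).mpr hd)
      have hmod : k • a = (k % p) • a := by
        conv_lhs => rw [← Nat.mod_add_div k p]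
        rw [add_smul, mul_comm, mul_smul, ha, smul_zero, add_zero]
      have hpos : 0 < k % p := Nat.pos_of_ne_zero fun h0 => hk (Nat.dvd_of_mod_eq_zero h0)
      have hlt : k % p < p := Nat.mod_lt _ hp.pos
      by_cases hc : k % p ≤ m
      · exact ⟨k % p, Finset.mem_Icc.mpr ⟨hpos, hc⟩, by rw [hmod]⟩
      · refine ⟨p - k % p, Finset.mem_Icc.mpr ⟨by omega, by omega⟩, ?_⟩
        have : (p - k % p) • a = -((k % p) • a) := by
          rw [eq_neg_iff_add_eq_zero, ← add_smul, Nat.sub_add_cancel hlt.le, ha]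
        rw [this, xc_neg, hmod]
    · rintro ⟨k, hk, rfl⟩
      rw [Finset.mem_Icc] at hk
      have hkp : ¬ p ∣ k := fun hd => by have := Nat.le_of_dvd (by omega) hd; omega
      obtain ⟨h3, h4', -⟩ := xc_nsmul hW hp hvp ha0 ha1 hkp
      refine ⟨⟨k • a, h3, ?_, rfl⟩, ?_⟩
      · rw [smul_comm, ha, smul_zero]
      · rw [h4']
        exact (mem_E1_iff' hW ha0).mp ha1
  have hinj : Set.InjOn (fun k : ℕ => xc (k • a)) (Finset.Icc 1 m : Finset ℕ) := by
    intro k hk l hl hkl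
    rw [Finset.coe_Icc, Set.mem_Icc] at hk hl
    have hkp : ¬ p ∣ k := fun hd => by have := Nat.le_of_dvd (by omega) hd; omega
    have hlp : ¬ p ∣ l := fun hd => by have := Nat.le_of_dvd (by omega) hd; omega
    have hk0 := (xc_nsmul hW hp hvp ha0 ha1 hkp).1
    have hl0 := (xc_nsmul hW hp hvp ha0 ha1 hlp).1
    rcases (xc_eq_iff hk0 hl0).mp hkl with h5 | h5
    · rcases le_total k l with hle | hle
      · have h6 : (l - k) • a = 0 := by
          rw [← add_left_inj (k • a), ← add_smul, Nat.sub_add_cancel hle, zero_add, h5]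
        have h7 := (nsmul_eq_zero_iff_dvd hp ha ha0 _).mp h6
        rcases Nat.eq_zero_or_pos (l - k) with h8 | h8
        · omega
        · have := Nat.le_of_dvd h8 h7; omega
      · have h6 : (k - l) • a = 0 := by
          rw [← add_left_inj (l • a), ← add_smul, Nat.sub_add_cancel hle, zero_add, h5]
        have h7 := (nsmul_eq_zero_iff_dvd hp ha ha0 _).mp h6
        rcases Nat.eq_zero_or_pos (k - l) with h8 | h8
        · omega
        · have := Nat.le_of_dvd h8 h7; omega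
    · have h6 : (k + l) • a = 0 := by rw [add_smul, h5, neg_add_cancel]
      have h7 := (nsmul_eq_zero_iff_dvd hp ha ha0 _).mp h6
      have := Nat.le_of_dvd (by omega) h7
      omega
  rw [h2, Finset.prod_image hinj] at h1
  rw [Finset.prod_congr rfl (g := fun _ => v (xc a)) (fun k hk => by
    rw [Finset.mem_Icc] at hk
    have hkp : ¬ p ∣ k := fun hd => by have := Nat.le_of_dvd (by omega) hd; omega
    exact (xc_nsmul hW hp hvp ha0 ha1 hkp).2.1), Finset.prod_const, Nat.card_Icc,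
    Nat.add_sub_cancel] at h1
  rw [hm']
  exact h1

/-- the reduction of a `p`-torsion point outside the kernel of reduction is not two-torsion -/
lemma val_two (hW : IsInt v W) (hΔ : v W.Δ = 1) {p : ℕ} (hp : Odd p) {P : W.Point}
    (hP : p • P = 0) (hP0 : P ∉ E1 v hW) :
    v (xc P) ≤ 1 ∧
      v (4 * xc P ^ 3 + W.b₂ * xc P ^ 2 + 2 * W.b₄ * xc P + W.b₆) = 1 := by
  have hPz : P ≠ 0 := by rintro rfl; exact hP0 (zero_mem _)
  have hx : v (xc P) ≤ 1 := by
    rw [mem_E1_iff' hW hPz, not_lt] at hP0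
    exact hP0
  refine ⟨hx, ?_⟩
  set X := xc P with hX
  have hns := hW.ns_of_Δ hΔ hx
  have hx' : X ∈ v.integer := hx
  have i2 := EC.ofNat_mem_integer v 2
  have i4 := EC.ofNat_mem_integer v 4
  have hpsi : v (4 * X ^ 3 + W.b₂ * X ^ 2 + 2 * W.b₄ * X + W.b₆) ≤ 1 :=
    add_mem (add_mem (add_mem (mul_mem i4 (pow_mem hx' 3)) (mul_mem hW.b₂ (pow_mem hx' 2)))
      (mul_mem (mul_mem i2 hW.b₄) hx')) hW.b₆
  by_contra hne
  have hlt := lt_of_le_of_ne hpsi hne
  have hphi : v (X ^ 4 - W.b₄ * X ^ 2 - 2 * W.b₆ * X - W.b₈) = 1 := by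
    rcases hns with h1 | h1
    · exact absurd h1 hne
    · exact h1
  -- `2P` is in the kernel of reduction
  obtain ⟨μ, hμ, e0, e1, e2⟩ := (EC.isKummer W).rel P P
  rw [sub_self] at e0 e1 e2
  simp only [(coords hPz).1, (coords hPz).2, EC.xX_zero, EC.xZ_zero, mul_one, mul_zero,
    zero_add, one_mul] at e0 e1 e2
  have h2P : P + P ∈ E1 v hW := by
    rw [mem_E1_iff]
    have e0' : xX (P + P) = μ * (X ^ 4 - W.b₄ * X ^ 2 - 2 * W.b₆ * X - W.b₈) := by
      rw [e0, EC.F0, ← hX]; ring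
    have e1' : xZ (P + P) = μ * (4 * X ^ 3 + W.b₂ * X ^ 2 + 2 * W.b₄ * X + W.b₆) := by
      rw [e1, EC.F1, ← hX]; ring
    rw [InE1, e0', e1', map_mul, map_mul, hphi]
    have hvμ : 0 < v μ := lt_of_le_of_ne zero_le (Ne.symm (v.ne_zero_iff.mpr hμ))
    exact mul_lt_mul_of_pos_left hlt hvμ
  obtain ⟨k, hk⟩ := hp
  have h3 : P = (k + 1) • (P + P) := by
    have : (k + 1) • (P + P) = p • P + P := by
      rw [hk, ← two_nsmul, ← mul_nsmul', ← succ_nsmul]
      congr 1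
      ring
    rw [this, hP, zero_add]
  apply hP0
  rw [h3]
  exact nsmul_mem h2P _

omit [DecidableEq K] in
lemma alg_ratio_good {X Y T B2 B4 B6 B8 Xp Xm μ : K} (hYT : Y * T = 1)
    (e0 : Xp * Xm = μ * ((X * Y) ^ 2 - B4 * (X * Y) - B6 * (X + Y) - B8))
    (e1 : Xp + Xm = μ * (2 * (X + Y) * (X * Y) + B2 * (X * Y) + B4 * (X + Y) + B6))
    (e2 : μ * (X - Y) ^ 2 = 1) :
    (Xp - X) * (Xm - X) * (X * T - 1) ^ 2 =
      T * (-(4 * X ^ 3 + B2 * X ^ 2 + 2 * B4 * X + B6) +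
        T * (X ^ 4 - B4 * X ^ 2 - 2 * B6 * X - B8)) ∧
    ((Xp - X) + (Xm - X)) * (X * T - 1) ^ 2 =
      T * (6 * X ^ 2 + B2 * X + B4 + T * (B4 * X + B6 - 2 * X ^ 3)) := by
  have e3 : μ * (X * T - 1) ^ 2 = T ^ 2 := by
    linear_combination T ^ 2 * e2 + μ * (X * T - 1 + T * (X - Y)) * hYT
  have hp : (Xp - X) * (Xm - X) = μ * (X ^ 4 - B4 * X ^ 2 - 2 * B6 * X - B8 -
      Y * (4 * X ^ 3 + B2 * X ^ 2 + 2 * B4 * X + B6)) := by
    linear_combination e0 - X * e1 - X ^ 2 * e2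
  have hs : (Xp - X) + (Xm - X) = μ * (Y * (6 * X ^ 2 + B2 * X + B4) +
      (B4 * X + B6 - 2 * X ^ 3)) := by
    linear_combination e1 + 2 * X * e2
  constructor
  · rw [hp]
    linear_combination (X ^ 4 - B4 * X ^ 2 - 2 * B6 * X - B8 -
      Y * (4 * X ^ 3 + B2 * X ^ 2 + 2 * B4 * X + B6)) * e3 -
      T * (4 * X ^ 3 + B2 * X ^ 2 + 2 * B4 * X + B6) * hYT
  · rw [hs]
    linear_combination (Y * (6 * X ^ 2 + B2 * X + B4) + (B4 * X + B6 - 2 * X ^ 3)) * e3 +
      T * (6 * X ^ 2 + B2 * X + B4) * hYT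

/-- `X(P+Q) - X(P)` for `Q` in the kernel of reduction -/
theorem ratio_good (hW : IsInt v W) (hΔ : v W.Δ = 1) {p : ℕ} (hp : Odd p) {P Q : W.Point}
    (hP : p • P = 0) (hP0 : P ∉ E1 v hW) (hQ0 : Q ≠ 0) (hQ : Q ∈ E1 v hW) {g : Γ₀}
    (hg : v (xc Q) * g ^ 2 = 1) :
    v (xc (P + Q) - xc P) = g := by
  have hPz : P ≠ 0 := by rintro rfl; exact hP0 (zero_mem _)
  have hPp : P + Q ∉ E1 v hW := fun hc => hP0 (by
    have := sub_mem hc hQ
    rwa [add_sub_cancel_right] at this)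
  have hPm : P - Q ∉ E1 v hW := fun hc => hP0 (by
    have := add_mem hc hQ
    rwa [sub_add_cancel] at this)
  have hPpz : P + Q ≠ 0 := by intro h0; rw [h0] at hPp; exact hPp (zero_mem _)
  have hPmz : P - Q ≠ 0 := by intro h0; rw [h0] at hPm; exact hPm (zero_mem _)
  have hx1 : 1 < v (xc Q) := (mem_E1_iff' hW hQ0).mp hQ
  have hg0 : 0 < g := by
    refine lt_of_le_of_ne zero_le fun h0 => ?_
    rw [← h0, zero_pow two_ne_zero, mul_zero] at hg
    exact zero_ne_one hg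
  have hg1 : g < 1 := by
    by_contra hcon
    rw [not_lt] at hcon
    have h1 : 1 ≤ g ^ 2 := one_le_pow_of_one_le' hcon 2
    have h2 : 1 < v (xc Q) * g ^ 2 := lt_of_lt_of_le hx1 (le_mul_of_one_le_right' h1)
    exact absurd hg h2.ne'
  obtain ⟨hvX, hpsi⟩ := val_two hW hΔ hp hP hP0
  set X := xc P with hX
  set Y := xc Q with hY
  have hY0 : Y ≠ 0 := by
    intro h0; rw [h0, Valuation.map_zero] at hx1
    exact absurd hx1 (not_lt.mpr zero_le)
  set T := Y⁻¹ with hT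
  have hvT : v T = g ^ 2 := by
    rw [hT, map_inv₀]
    exact inv_eq_of_mul_eq_one_right hg
  have hvT1 : v T < 1 := by rw [hvT]; exact pow_lt_one₀ zero_le hg1 two_ne_zero
  -- the relation
  obtain ⟨μ, hμ, e0, e1, e2⟩ := (EC.isKummer W).rel P Q
  simp only [(coords hPz).1, (coords hPz).2, (coords hQ0).1, (coords hQ0).2, (coords hPpz).1,
    (coords hPpz).2, (coords hPmz).1, (coords hPmz).2, mul_one] at e0 e1 e2
  set Xp := xc (P + Q) with hXp
  set Xm := xc (P - Q) with hXm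
  simp only [EC.F0, EC.F1, EC.F2, ← hX, ← hY] at e0 e1 e2
  have hYT : Y * T = 1 := mul_inv_cancel₀ hY0
  obtain ⟨hprod, hsum⟩ := alg_ratio_good (B2 := W.b₂) (B4 := W.b₄) (B6 := W.b₆) (B8 := W.b₈)
    (Xp := Xp) (Xm := Xm) (μ := μ) (X := X) hYT
    (by linear_combination e0) (by linear_combination e1) (by linear_combination -e2)
  have hX' : X ∈ v.integer := hvX
  have hT' : T ∈ v.integer := hvT1.le
  have i2 := EC.ofNat_mem_integer v 2
  have i6 := EC.ofNat_mem_integer v 6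
  have hvXT : v (X * T - 1) = 1 := by
    have h2 : v (X * T) < v (1 : K) := by
      rw [map_mul, map_one]
      exact lt_of_le_of_lt (mul_le_of_le_one_left' hvX) hvT1
    rw [Valuation.map_sub_eq_of_lt_right v h2, map_one]
  have hp1 : v ((Xp - X) * (Xm - X)) = g ^ 2 := by
    have h1 : v (-(4 * X ^ 3 + W.b₂ * X ^ 2 + 2 * W.b₄ * X + W.b₆) +
        T * (X ^ 4 - W.b₄ * X ^ 2 - 2 * W.b₆ * X - W.b₈)) = 1 := by
      have h5 : v (T * (X ^ 4 - W.b₄ * X ^ 2 - 2 * W.b₆ * X - W.b₈)) <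
          v (-(4 * X ^ 3 + W.b₂ * X ^ 2 + 2 * W.b₄ * X + W.b₆)) := by
        rw [Valuation.map_neg, hpsi, map_mul]
        refine lt_of_le_of_lt (mul_le_of_le_one_right' ?_) hvT1
        exact sub_mem (sub_mem (sub_mem (pow_mem hX' 4) (mul_mem hW.b₄ (pow_mem hX' 2)))
          (mul_mem (mul_mem i2 hW.b₆) hX')) hW.b₈
      rw [Valuation.map_add_eq_of_lt_left v h5, Valuation.map_neg, hpsi]
    have h6 := congrArg v hprod
    rw [map_mul, map_pow, hvXT, one_pow, mul_one, map_mul v T, h1, mul_one, hvT] at h6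
    exact h6
  have hs1 : v ((Xp - X) + (Xm - X)) ≤ g ^ 2 := by
    have h1 : v (6 * X ^ 2 + W.b₂ * X + W.b₄ + T * (W.b₄ * X + W.b₆ - 2 * X ^ 3)) ≤ 1 :=
      add_mem (add_mem (add_mem (mul_mem i6 (pow_mem hX' 2)) (mul_mem hW.b₂ hX')) hW.b₄)
        (mul_mem hT' (sub_mem (add_mem (mul_mem hW.b₄ hX') hW.b₆) (mul_mem i2 (pow_mem hX' 3))))
    have h6 := congrArg v hsum
    rw [map_mul, map_pow, hvXT, one_pow, mul_one, map_mul v T, hvT] at h6
    rw [h6]
    exact mul_le_of_le_one_right' h1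
  exact (val_of_sum_prod hg0 hg1 hs1 hp1).1

end Big

section Main

variable {R S K Γ₀ : Type*} [CommRing R] [CommRing S] [Field K] [DecidableEq K] [IsAlgClosed K]
  [LinearOrderedCommGroupWithZero Γ₀] [Algebra R S] [Algebra R K] [Algebra S K]
  [IsScalarTower R S K] {v : Valuation K Γ₀} {W' : Affine R}

omit [IsAlgClosed K] in
/-- good reduction: `σ P - P` is in the kernel of reduction -/
theorem smul_sub_mem_E1_good (hW : IsInt v (W'⁄K)) (hΔ : v (W'⁄K).Δ = 1) {σ : K ≃ₐ[S] K}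
    (hσ : TrivMod v σ) (Q : (W'⁄K).Point) : σ • Q - Q ∈ E1 v hW := by
  rw [mem_E1_iff]
  refine EC.smul_sub_inE1 hW hσ Q (fun h => ?_)
  rcases Q with _ | ⟨x, y, h'⟩
  · simp [← zero_def] at h
  · exact hW.ns_of_Δ hΔ (by simpa using h)

/-- **Local structure of the `p`-torsion**, good ordinary reduction (residue characteristic `p`). -/
theorem exists_basis_good (hW : IsInt v (W'⁄K)) (hΔ : v (W'⁄K).Δ = 1) (h4 : v (4 : K) = 1) {p : ℕ}
    (hp : p.Prime) (hp2 : p ≠ 2) (hpK : (p : K) ≠ 0) (hvp : v (p : K) < 1)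
    (hfin : {P : (W'⁄K).Point | p • P = 0}.Finite)
    (hcard : p ^ 2 ≤ {P : (W'⁄K).Point | p • P = 0}.ncard)
    (hord : ∃ P : (W'⁄K).Point, p • P = 0 ∧ P ∉ E1 v hW)
    {ζ : K} (hζ : IsPrimitiveRoot ζ p) :
    ∃ (a x : (W'⁄K).Point) (c : ℕ), a ≠ 0 ∧ p • a = 0 ∧ a ∈ E1 v hW ∧ x ≠ 0 ∧ p • x = 0 ∧
      x ∉ E1 v hW ∧ v (xc x + c) = 1 ∧
      (∀ Q : (W'⁄K).Point, p • Q = 0 → ∃ i j : ℕ, Q = i • a + j • x) ∧
      (∀ Q : (W'⁄K).Point, p • Q = 0 → Q ∈ E1 v hW → ∃ i : ℕ, Q = i • a) ∧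
      v (xc a) * v (ζ - 1) ^ 2 = 1 ∧
      ∀ σ : K ≃ₐ[S] K, TrivMod v σ →
        (∀ k : ℕ, σ ζ = ζ ^ k → σ • a = k • a) ∧
        ∃ κ : ℕ, σ • x = x + κ • a ∧
          (¬ p ∣ κ → v (σ (xc x + c) / (xc x + c) - 1) = v (ζ - 1)) := by
  obtain ⟨a, ha0, ha, ha1, hgen, hgen2⟩ := exists_gen_good hW hΔ h4 hp hp2 hpK hvp hfin hcard hord
  obtain ⟨x, hxp, hxE⟩ := hord
  have hx0 : x ≠ 0 := by intro h0; rw [h0] at hxE; exact hxE (zero_mem _)
  have hval := val_xc_gen_good hW hΔ h4 hp hp2 hpK hvp hfin hcard ha0 ha ha1 hgen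
  have hvζ := val_zeta (v := v) hp hζ
  have hodd := hp.odd_of_ne_two hp2
  have hmain : v (xc a) * v (ζ - 1) ^ 2 = 1 := by
    have h1 : (v (xc a) * v (ζ - 1) ^ 2) ^ ((p - 1) / 2) = 1 := by
      rw [mul_pow, ← pow_mul]
      have h2 : 2 * ((p - 1) / 2) = p - 1 := by
        obtain ⟨k, hk⟩ := hodd
        omega
      rw [h2, hvζ, mul_comm, hval]
    have hne : (p - 1) / 2 ≠ 0 := by
      obtain ⟨k, hk⟩ := hodd
      have := hp.two_le
      omega
    exact (pow_eq_one_iff_of_nonneg zero_le hne).mp h1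
  have hζ1 : ζ ≠ 1 := hζ.ne_one hp.one_lt
  have hxv : v (xc x) ≤ 1 := (val_two hW hΔ hodd hxp hxE).1
  obtain ⟨c, hc⟩ : ∃ c : ℕ, v (xc x + c) = 1 := by
    rcases lt_or_eq_of_le hxv with h1 | h1
    · refine ⟨1, ?_⟩
      rw [Nat.cast_one, Valuation.map_add_eq_of_lt_right v (by rwa [map_one]), map_one]
    · exact ⟨0, by rw [Nat.cast_zero, add_zero, h1]⟩
  refine ⟨a, x, c, ha0, ha, ha1, hx0, hxp, hxE, hc, hgen2 x hxp hxE, hgen, hmain, ?_⟩
  intro σ hσ
  constructor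
  · intro k hk
    have hσa : p • (σ • a) = 0 := by rw [smul_comm, ha, smul_zero]
    have hσa1 : σ • a ∈ E1 v hW := by
      have h2 := add_mem (smul_sub_mem_E1_good hW hΔ hσ a) ha1
      rwa [sub_add_cancel] at h2
    obtain ⟨n, hn⟩ := hgen _ hσa hσa1
    exact smul_gen hW h4 hp hvp ha0 ha ha1 hζ1 hmain hσ hn hk
  · have h1 := smul_sub_mem_E1_good hW hΔ hσ x
    have h2 : p • (σ • x - x) = 0 := by
      rw [nsmul_sub, hxp, sub_zero, smul_comm, hxp, smul_zero]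
    obtain ⟨κ, hκ⟩ := hgen _ h2 h1
    have h3 : σ • x = x + κ • a := by rw [← hκ]; abel
    refine ⟨κ, h3, fun hκp => ?_⟩
    have hκa := xc_nsmul hW hp hvp ha0 ha1 hκp
    have h5 := ratio_good hW hΔ hodd hxp hxE hκa.1 (nsmul_mem ha1 κ) (g := v (ζ - 1))
      (by rw [hκa.2.1]; exact hmain)
    rw [← h3, xc_smul' σ hx0] at h5
    have hu0 : xc x + (c : K) ≠ 0 := by
      intro h0; rw [h0, _root_.map_zero] at hc; exact zero_ne_one hc
    have h6 : σ (xc x + c) / (xc x + c) - 1 = (σ (xc x) - xc x) / (xc x + c) := by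
      rw [_root_.map_add, map_natCast]
      field_simp
      ring
    rw [h6, map_div₀, hc, div_one, h5]

end Main

end Fermat.Agent.LO4
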